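import Fermat.Agent.TwoDescent.IsogenyClass
import Fermat.Agent.Torsion.Summary

/-!
# The rank bound of the two-isogeny descent

The doubles have index at least `2 ^ (r + 1)`, and `2 ^ (r + 2)` when `a² - 4 b` is a square; the
two class maps bound it from above by the product of their images, halved when `a² - 4 b` is no
square, since `(0, 0)` on the isogenous curve is then no image but is killed by the isogeny back.
-/

set_option autoImplicit false
set_option linter.style.haveILetI false
set_option linter.unusedSectionVars false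

noncomputable section

open WeierstrassCurve
open FA.CM.Seven (twoCurve twoCurve_equation twoCurve_negY isogHom isogHom_apply isogFun_some
  isogFun_some_zero)
open FA.SetzerNeumann (zeroPoint two_nsmul_zeroPoint backHom backHom_zeroPoint exists_back
  halveScale halveScale_smul b_ne_zero)
open FA.Frob (vcEquiv vcEquiv_some vcX)

namespace FA.TwoDescent

/-- The doubles of a finitely generated group with `m` elements killed by two in the torsion
have index at least `m * 2 ^ r`. -/
theorem card_two_mul_le_index {G : Type*} [AddCommGroup G] [AddGroup.FG G]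
    [Finite (AddCommGroup.torsion G)] (hD : (nsmulAddMonoidHom (α := G) 2).range.index ≠ 0) :
    Nat.card {t : AddCommGroup.torsion G // 2 • t = 0} * 2 ^ Module.finrank ℤ G ≤
      (nsmulAddMonoidHom (α := G) 2).range.index := by
  obtain ⟨r, ⟨e⟩⟩ := FA.MordellWeil.exists_equiv_torsion_prod G
  set T := AddCommGroup.torsion G
  have hr : Module.finrank ℤ G = r := by
    let s := LinearMap.snd ℤ T (Fin r → ℤ)
    have h0 : Module.finrank ℤ (LinearMap.ker s) = 0 := Module.finrank_eq_zero_iff.mpr fun x =>
      ⟨Nat.card T, Int.natCast_ne_zero.2 Nat.card_pos.ne', Subtype.ext (Prod.ext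
        (by show (Nat.card T : ℤ) • x.1.1 = 0; rw [natCast_zsmul, card_nsmul_eq_zero'])
        (by show (Nat.card T : ℤ) • x.1.2 = 0; rw [show x.1.2 = 0 from x.2, smul_zero]))⟩
    haveI : Module.Finite ℤ G := Module.Finite.iff_addGroup_fg.mpr inferInstance
    haveI : Module.Finite ℤ (T × (Fin r → ℤ)) := Module.Finite.equiv e.toIntLinearEquiv
    have h1 := (LinearMap.ker s).finrank_quotient_add_finrank
    rw [h0, (LinearMap.quotKerEquivOfSurjective s LinearMap.snd_surjective).finrank_eq,
      Module.finrank_pi, Fintype.card_fin] at h1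
    rw [show Module.finrank ℤ G = _ from e.toIntLinearEquiv.finrank_eq]
    omega
  rw [hr]
  set D := (nsmulAddMonoidHom (α := T) 2).range
  let f : G →+ (T ⧸ D) × (Fin r → ZMod 2) :=
    ((QuotientAddGroup.mk' D).prodMap ((Int.castAddHom (ZMod 2)).compLeft (Fin r))).comp
      e.toAddMonoidHom
  have hsurj : Function.Surjective f := fun z => by
    obtain ⟨t, ht⟩ := QuotientAddGroup.mk'_surjective D z.1
    choose g hg using fun i => ZMod.intCast_surjective (z.2 i)
    refine ⟨e.symm (t, g), ?_⟩
    simp only [f, AddMonoidHom.comp_apply, AddEquiv.coe_toAddMonoidHom, e.apply_symm_apply]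
    exact Prod.ext ht (funext hg)
  have hle : (nsmulAddMonoidHom (α := G) 2).range ≤ f.ker := by
    rintro _ ⟨g, rfl⟩
    rw [AddMonoidHom.mem_ker, nsmulAddMonoidHom_apply, map_nsmul]
    refine Prod.ext ?_ ?_
    · show 2 • (f g).1 = 0
      simp only [f, AddMonoidHom.comp_apply, AddMonoidHom.coe_prodMap, Prod.map_fst]
      rw [← map_nsmul]
      exact (QuotientAddGroup.eq_zero_iff _).2 ⟨_, rfl⟩
    · funext i
      show 2 • (f g).2 i = 0
      rw [two_nsmul, CharTwo.add_self_eq_zero]
  refine le_of_eq_of_le ?_ (Nat.le_of_dvd (Nat.pos_of_ne_zero hD)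
    (AddSubgroup.index_dvd_of_le hle))
  rw [AddSubgroup.index_ker, AddMonoidHom.range_eq_top.2 hsurj, AddSubgroup.card_top,
    Nat.card_prod, Nat.card_pi, Finset.prod_const, Finset.card_univ, Fintype.card_fin,
    Nat.card_zmod]
  congr 1
  rw [show Nat.card (T ⧸ D) = D.index from rfl, AddSubgroup.index_range]
  exact Nat.card_congr (Equiv.subtypeEquivRight fun t => by simp [AddMonoidHom.mem_ker])

/-- `Supported` is unchanged by squares. -/
theorem supported_mul_sq {S : Finset ℕ} {x c : ℚ} (hx : x ≠ 0) (hc : c ≠ 0) (h : Supported S x) :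
    Supported S (c ^ 2 * x) := fun q hq hqS => by
  have := Fact.mk hq
  rw [padicValRat.mul (pow_ne_zero 2 hc) hx, padicValRat.pow]
  exact ((even_two_mul _)).add (h q hq hqS)

variable {a b : ℚ} [(twoCurve a b).IsElliptic] [(twoCurve (-2 * a) (a ^ 2 - 4 * b)).IsElliptic]

/-- Points of order two on a curve with square `a² - 4 b`. -/
theorem four_le_card_two {k : ℚ} (hk : a ^ 2 - 4 * b = k * k)
    [Finite (AddCommGroup.torsion (twoCurve a b).toAffine.Point)] :
    4 ≤ Nat.card {t : AddCommGroup.torsion (twoCurve a b).toAffine.Point // 2 • t = 0} := by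
  have hb := b_ne_zero (a := a) (b := b)
  have hk0 : k ≠ 0 := fun e =>
    b_ne_zero (a := -2 * a) (b := a ^ 2 - 4 * b) (by rw [hk, e, zero_mul])
  have hns : ∀ u : ℚ, u ^ 2 + a * u + b = 0 → (twoCurve a b).toAffine.Nonsingular u 0 :=
    fun u hu => Affine.equation_iff_nonsingular.mp
      (twoCurve_equation.mpr (by linear_combination -u * hu))
  have h1 := hns ((-a + k) / 2) (by linear_combination -hk / 4)
  have h2 := hns ((-a - k) / 2) (by linear_combination -hk / 4)
  have hne : ∀ u : ℚ, u ^ 2 + a * u + b = 0 → u ≠ 0 := fun u hu e => hb (by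
    rw [e] at hu; linarith)
  have htwo : ∀ {u : ℚ} {h : (twoCurve a b).toAffine.Nonsingular u 0},
      2 • Affine.Point.some u 0 h = 0 := by
    intro u h
    rw [two_nsmul]
    exact Affine.Point.add_self_of_Y_eq (by simp)
  let g : Fin 4 → (twoCurve a b).toAffine.Point :=
    ![0, zeroPoint a b, .some _ _ h1, .some _ _ h2]
  have hg : ∀ i, 2 • g i = 0 := fun i => by
    fin_cases i
    · exact nsmul_zero 2
    · exact two_nsmul_zeroPoint
    · exact htwo
    · exact htwo
  have hinj : Function.Injective g := fun i j hij => by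
    have n1 := hne ((-a + k) / 2) (by linear_combination -hk / 4)
    have n2 := hne ((-a - k) / 2) (by linear_combination -hk / 4)
    have n3 : (-a + k) / 2 ≠ (-a - k) / 2 := fun e => hk0 (by linarith)
    fin_cases i <;> fin_cases j <;>
      simp_all [g, zeroPoint, Affine.Point.some.injEq, eq_comm (a := (0 : ℚ))]
  have := Nat.card_le_card_of_injective (fun i => (⟨⟨g i, (AddCommGroup.mem_torsion _).2
    (isOfFinAddOrder_iff_nsmul_eq_zero.2 ⟨2, two_pos, hg i⟩)⟩, Subtype.ext (hg i)⟩ :
    {t : AddCommGroup.torsion (twoCurve a b).toAffine.Point // 2 • t = 0}))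
    fun i j h => hinj (congrArg (fun t => t.1.1) h)
  simpa using this

/-- At least two points are killed by two. -/
theorem two_le_card_two [Finite (AddCommGroup.torsion (twoCurve a b).toAffine.Point)] :
    2 ≤ Nat.card {t : AddCommGroup.torsion (twoCurve a b).toAffine.Point // 2 • t = 0} := by
  haveI : Nontrivial {t : AddCommGroup.torsion (twoCurve a b).toAffine.Point // 2 • t = 0} :=
    ⟨⟨0, nsmul_zero 2⟩, ⟨⟨zeroPoint a b, (AddCommGroup.mem_torsion _).2
      (isOfFinAddOrder_iff_nsmul_eq_zero.2 ⟨2, two_pos, two_nsmul_zeroPoint⟩)⟩,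
      Subtype.ext two_nsmul_zeroPoint⟩, fun h => Affine.Point.some_ne_zero _
        (congrArg (fun t => t.1.1) h).symm⟩
  exact Finite.one_lt_card

/-- **The two-isogeny descent bound.** If the abscissae on both curves are supported on `S`, `S'`
and the classes lie in `H`, `H'` then `2 ^ (r + 2) ≤ #H #H'`. -/
theorem two_pow_rank_le {S S' : Finset ℕ} (hS : ∀ q ∈ S, q.Prime) (hS' : ∀ q ∈ S', q.Prime)
    (hb : Supported S b)
    (hx : ∀ x y : ℚ, x ≠ 0 → y ^ 2 = x ^ 3 + a * x ^ 2 + b * x → Supported S x)
    (hb' : Supported S' (a ^ 2 - 4 * b))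
    (hx' : ∀ x y : ℚ, x ≠ 0 → y ^ 2 = x ^ 3 + (-2 * a) * x ^ 2 + (a ^ 2 - 4 * b) * x →
      Supported S' x)
    {H : AddSubgroup (Classes S)} (hH : ∀ P, classHom hS (a := a) (b := b) P ∈ H)
    {H' : AddSubgroup (Classes S')}
    (hH' : ∀ P, classHom hS' (a := -2 * a) (b := a ^ 2 - 4 * b) P ∈ H') :
    2 ^ (Module.finrank ℤ (twoCurve a b).toAffine.Point + 2) ≤ Nat.card H * Nat.card H' := by
  haveI := FA.MordellWeil.mordell (twoCurve a b)
  haveI : Finite (AddCommGroup.torsion (twoCurve a b).toAffine.Point) := by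
    rcases FA.Torsion.mazur_torsion (twoCurve a b) with ⟨n, hn, ⟨f⟩⟩ | ⟨m, hm, ⟨f⟩⟩
    · have : NeZero n := ⟨by rintro rfl; simp at hn⟩
      exact Finite.of_equiv _ f.toEquiv.symm
    · have : NeZero (2 * m) := ⟨fun e => by simp at hm; omega⟩
      exact Finite.of_equiv _ f.toEquiv.symm
  set φ := isogHom (a := a) (b := b)
  set ψ := backHom (a := a) (b := b)
  set αH := classHom hS (a := a) (b := b)
  -- the kernel on the curve
  have hI : αH.ker ≤ ψ.range := fun P hP => by
    let v : (twoCurve a b).toAffine.Point ≃+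
        (twoCurve (-2 * (-2 * a)) ((-2 * a) ^ 2 - 4 * (a ^ 2 - 4 * b))).toAffine.Point :=
      vcEquiv halveScale (halveScale_smul (a := a) (b := b))
    have h16 : (-2 * a) ^ 2 - 4 * (a ^ 2 - 4 * b) = 4 ^ 2 * b := by ring
    have hcl : classHom hS (v P) = αH P := by
      rcases P with _ | ⟨x, y, h⟩
      · exact (congrArg _ (map_zero v)).trans (map_zero (classHom hS))
      rw [show v (.some x y h) = _ from vcEquiv_some halveScale halveScale_smul h]
      simp only [αH, classHom, AddMonoidHom.mk'_apply, classFun, vcX, halveScale,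
        Units.val_mk0, add_zero]
      by_cases z : x = 0
      · subst z
        rw [if_pos (by ring), if_pos rfl, h16, classOf_mul hS (by norm_num) (b_ne_zero (a := a)),
          classOf_sq hS (by norm_num), zero_add]
      · rw [if_neg (mul_ne_zero (by norm_num) z), if_neg z, classOf_mul hS (by norm_num) z,
          classOf_sq hS two_ne_zero, zero_add]
    obtain ⟨Q, hQ⟩ := exists_preimage_of_classHom (a := -2 * a) (b := a ^ 2 - 4 * b) hS
      (h16 ▸ supported_mul_sq (b_ne_zero (a := a)) (by norm_num) hb)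
      (fun x y z e => by
        have := supported_mul_sq (c := 2) (div_ne_zero z four_ne_zero) two_ne_zero
          (hx (x / 4) (y / 8) (div_ne_zero z four_ne_zero) (by linear_combination e / 64))
        rwa [show (2 : ℚ) ^ 2 * (x / 4) = x by ring] at this)
      (P := v P) (hcl.trans hP)
    exact ⟨Q, by show v.symm (isogHom Q) = P; rw [hQ, v.symm_apply_apply]⟩
  -- the kernel on the isogenous curve
  have hJ : (classHom hS' (a := -2 * a) (b := a ^ 2 - 4 * b)).ker ≤ φ.range := fun P hP =>
    exists_preimage_of_classHom hS' hb' hx' hP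
  have hIH : ψ.range.index ∣ Nat.card αH.range := by
    rw [← AddSubgroup.index_ker]
    exact AddSubgroup.index_dvd_of_le hI
  have hJH : φ.range.index ∣
      Nat.card (classHom hS' (a := -2 * a) (b := a ^ 2 - 4 * b)).range := by
    rw [← AddSubgroup.index_ker]
    exact AddSubgroup.index_dvd_of_le hJ
  have hI0 : ψ.range.index ≠ 0 := fun e => by
    rw [e, zero_dvd_iff] at hIH
    exact Nat.card_pos.ne' hIH
  have hJ0 : φ.range.index ≠ 0 := fun e => by
    rw [e, zero_dvd_iff] at hJH
    exact Nat.card_pos.ne' hJH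
  have hIle : ψ.range.index ≤ Nat.card H := (Nat.le_of_dvd Nat.card_pos hIH).trans
    (AddSubgroup.card_le_of_le (by rintro _ ⟨P, rfl⟩; exact hH P))
  have hJle : φ.range.index ≤ Nat.card H' := (Nat.le_of_dvd Nat.card_pos hJH).trans
    (AddSubgroup.card_le_of_le (by rintro _ ⟨P, rfl⟩; exact hH' P))
  -- the doubles contain the composite image
  set D := (nsmulAddMonoidHom (α := (twoCurve a b).toAffine.Point) 2).range
  have hcomp : φ.range.map ψ ≤ D := by
    rintro _ ⟨_, ⟨P, rfl⟩, rfl⟩
    obtain ⟨R, hR⟩ := exists_back (a := a) (b := b) P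
    exact ⟨R, hR.symm⟩
  have hdvd := AddSubgroup.index_dvd_of_le hcomp
  rw [AddSubgroup.index_map] at hdvd
  set K := φ.range ⊔ ψ.ker
  have hK : K.index ∣ φ.range.index := AddSubgroup.index_dvd_of_le le_sup_left
  have hK0 : K.index ≠ 0 := fun e => by
    rw [e, zero_dvd_iff] at hK
    exact hJ0 hK
  have hD : D.index ≠ 0 := fun e => by
    rw [e, zero_dvd_iff] at hdvd
    exact mul_ne_zero hK0 hI0 hdvd
  have hDle : D.index ≤ K.index * ψ.range.index :=
    Nat.le_of_dvd (Nat.pos_of_ne_zero (mul_ne_zero hK0 hI0)) hdvd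
  have hlow := card_two_mul_le_index hD
  have hKle := Nat.le_of_dvd (Nat.pos_of_ne_zero hJ0) hK
  rw [pow_add]
  set R := 2 ^ Module.finrank ℤ (twoCurve a b).toAffine.Point
  by_cases hsq : IsSquare (a ^ 2 - 4 * b)
  · obtain ⟨k, hk⟩ := hsq
    calc R * 2 ^ 2 ≤ D.index := by nlinarith [four_le_card_two hk, Nat.zero_le R]
      _ ≤ K.index * ψ.range.index := hDle
      _ ≤ Nat.card H' * Nat.card H := Nat.mul_le_mul (hKle.trans hJle) hIle
      _ = Nat.card H * Nat.card H' := mul_comm _ _
  · have hT : zeroPoint (-2 * a) (a ^ 2 - 4 * b) ∉ φ.range := by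
      rintro ⟨Q, hQ⟩
      rcases Q with _ | ⟨x, y, h⟩
      · exact Affine.Point.some_ne_zero _ ((map_zero φ).symm.trans hQ).symm
      by_cases z : x = 0
      · subst z
        rw [isogHom_apply, isogFun_some_zero] at hQ
        exact Affine.Point.some_ne_zero _ hQ.symm
      rw [isogHom_apply, isogFun_some z, zeroPoint, Affine.Point.some.injEq] at hQ
      have hy : y = 0 := by simpa [z] using hQ.1
      subst hy
      have e := twoCurve_equation.mp h.1
      refine hsq ⟨2 * x + a, ?_⟩
      have : x ^ 2 + a * x + b = 0 := mul_left_cancel₀ z (by linear_combination -e)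
      linear_combination -4 * this
    have hlt : φ.range < K := lt_of_le_of_ne le_sup_left fun e => hT (e ▸
      AddSubgroup.mem_sup_right ((AddMonoidHom.mem_ker).2 backHom_zeroPoint))
    have h2 : 2 * K.index ≤ φ.range.index := by
      rw [← AddSubgroup.relIndex_mul_index hlt.le]
      refine Nat.mul_le_mul_right _ (Nat.succ_le_of_lt (Nat.one_lt_iff_ne_zero_and_ne_one.2
        ⟨fun e => hJ0 ?_, fun e => hlt.not_ge (AddSubgroup.relIndex_eq_one.1 e)⟩))
      rw [← AddSubgroup.relIndex_mul_index hlt.le, e, zero_mul]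
    calc R * 2 ^ 2 ≤ 2 * D.index := by nlinarith [two_le_card_two (a := a) (b := b), Nat.zero_le R]
      _ ≤ 2 * (K.index * ψ.range.index) := Nat.mul_le_mul_left 2 hDle
      _ = 2 * K.index * ψ.range.index := (mul_assoc _ _ _).symm
      _ ≤ Nat.card H' * Nat.card H := Nat.mul_le_mul (h2.trans hJle) hIle
      _ = Nat.card H * Nat.card H' := mul_comm _ _

end FA.TwoDescent

end
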