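import Fermat.Agent.Torsion.Short

/-!
# Halving a point of `y² = x³ + a x² + b x + d`

If `x - θ` is a square in the cubic field then the point is twice a point; if `x - θ` is always a
square or a fixed element times a square then one translate of the doubles covers everything else.
-/

set_option autoImplicit false
set_option linter.style.haveILetI false

noncomputable section

open WeierstrassCurve
open FA.Torsion (shortCurve shortCurve_negY exists_double shortCurve_equation)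

namespace FA.TwoDescent

variable {K : Type*} [Field K] [CharZero K] {θ : K} {a b d : ℚ}

/-- No rational number is a root. -/
theorem root_ne (hθ : θ ^ 3 + (a : K) * θ ^ 2 + (b : K) * θ + (d : K) = 0)
    (hind : ∀ A B C : ℚ, (A : K) * θ ^ 2 + (B : K) * θ + (C : K) = 0 → A = 0 ∧ B = 0 ∧ C = 0)
    (r : ℚ) : r ^ 3 + a * r ^ 2 + b * r + d ≠ 0 := by
  intro hr
  have hr' : (r : K) ^ 3 + (a : K) * r ^ 2 + (b : K) * r + (d : K) = 0 := by exact_mod_cast hr
  rcases mul_eq_zero.mp (show (((0 : ℚ) : K) * θ ^ 2 + ((1 : ℚ) : K) * θ + ((-r : ℚ) : K)) *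
      (((1 : ℚ) : K) * θ ^ 2 + ((a + r : ℚ) : K) * θ + ((r ^ 2 + a * r + b : ℚ) : K)) = 0 by
    push_cast
    linear_combination hθ - hr') with e | e
  · exact one_ne_zero (hind _ _ _ e).2.1
  · exact one_ne_zero (hind _ _ _ e).1

variable [(shortCurve a b d).IsElliptic]

/-- A point with square `X - θ` is twice a point. -/
theorem exists_half (hθ : θ ^ 3 + (a : K) * θ ^ 2 + (b : K) * θ + (d : K) = 0)
    (hind : ∀ A B C : ℚ, (A : K) * θ ^ 2 + (B : K) * θ + (C : K) = 0 → A = 0 ∧ B = 0 ∧ C = 0)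
    (hspan : ∀ k : K, ∃ x y z : ℚ, k = (x : K) + (y : K) * θ + (z : K) * θ ^ 2)
    {X W : ℚ} {hP : (shortCurve a b d).toAffine.Nonsingular X W} {s : K}
    (hs : (X : K) - θ = s ^ 2) : ∃ R, 2 • R = Affine.Point.some X W hP := by
  have hE : W ^ 2 = X ^ 3 + a * X ^ 2 + b * X + d := shortCurve_equation hP
  obtain ⟨x, y, z, rfl⟩ := hspan s
  have hz : z ≠ 0 := fun hz => by
    obtain ⟨h2, h1, -⟩ := hind (y ^ 2) (2 * x * y + 1) (x ^ 2 - X) (by
      subst hz
      push_cast at hs ⊢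
      linear_combination -hs)
    rw [pow_eq_zero_iff two_ne_zero] at h2
    rw [h2] at h1
    norm_num at h1
  set r := (y - a * z) / z with hr
  set w := x - b * z - r * y with hw
  set c := -(d * z) - r * x with hc
  have hrz : r * z = y - a * z := div_mul_cancel₀ _ hz
  have hL : (θ - (r : K)) * ((x : K) + (y : K) * θ + (z : K) * θ ^ 2) =
      (w : K) * θ + (c : K) := by
    have hrz' : (r : K) * z = y - (a : K) * z := by exact_mod_cast hrz
    rw [hw, hc]
    push_cast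
    linear_combination (z : K) * hθ - θ ^ 2 * hrz'
  have hquad : (X + 2 * r - w ^ 2 + a : ℚ) = 0 ∧ (-r ^ 2 - 2 * X * r - 2 * w * c + b : ℚ) = 0 ∧
      (X * r ^ 2 - c ^ 2 + d : ℚ) = 0 := by
    refine hind _ _ _ ?_
    push_cast
    linear_combination (θ - (r : K)) ^ 2 * hs +
      ((θ - (r : K)) * ((x : K) + (y : K) * θ + (z : K) * θ ^ 2) + ((w : K) * θ + c)) * hL + hθ
  obtain ⟨q2, q1, q0⟩ := hquad
  clear_value r w c
  set y₀ := w * r + c with hy₀
  have hR : (shortCurve a b d).toAffine.Nonsingular r y₀ :=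
    Affine.equation_iff_nonsingular.mp ((Affine.equation_iff _ _).mpr (by
      simp [shortCurve]; linear_combination -r ^ 2 * q2 - r * q1 - q0))
  have hy : y₀ ≠ 0 := fun e => root_ne hθ hind r (by
    rw [hy₀] at e
    linear_combination (w * r + c) * e + r ^ 2 * q2 + r * q1 + q0)
  obtain ⟨h', e2'⟩ := exists_double (h := hR) hy
  have hl : (3 * r ^ 2 + 2 * a * r + b) / (2 * y₀) = w := by
    rw [div_eq_iff (mul_ne_zero two_ne_zero hy)]
    linear_combination 2 * r * q2 + q1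
  have hx2 : w ^ 2 - a - r - r = X := by linear_combination -q2
  simp only [hl, hx2] at e2'
  have hy2 : -(w * (X - r) + y₀) = -(w * X + c) := by ring
  have hWsq : W ^ 2 = (w * X + c) ^ 2 := by
    linear_combination hE + X ^ 2 * q2 + X * q1 + q0
  rcases sq_eq_sq_iff_eq_or_eq_neg.mp hWsq with rfl | rfl
  · refine ⟨-Affine.Point.some r y₀ hR, ?_⟩
    rw [neg_nsmul, e2', Affine.Point.neg_some, Affine.Point.some.injEq]
    exact ⟨rfl, by rw [shortCurve_negY, hy2, neg_neg]⟩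
  · refine ⟨Affine.Point.some r y₀ hR, ?_⟩
    rw [e2', Affine.Point.some.injEq]
    exact ⟨rfl, hy2⟩

/-- With two classes of `X - θ` the doubles and one translate of them are everything. -/
theorem exists_half_or (hθ : θ ^ 3 + (a : K) * θ ^ 2 + (b : K) * θ + (d : K) = 0)
    (hind : ∀ A B C : ℚ, (A : K) * θ ^ 2 + (B : K) * θ + (C : K) = 0 → A = 0 ∧ B = 0 ∧ C = 0)
    (hspan : ∀ k : K, ∃ x y z : ℚ, k = (x : K) + (y : K) * θ + (z : K) * θ ^ 2) (c : K)
    (hclass : ∀ X W : ℚ, W ^ 2 = X ^ 3 + a * X ^ 2 + b * X + d →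
      ∃ s : K, (X : K) - θ = s ^ 2 ∨ (X : K) - θ = c * s ^ 2) :
    ∃ B : (shortCurve a b d).toAffine.Point, ∀ P, ∃ R, P = 2 • R ∨ P = B + 2 • R := by
  by_cases hall : ∀ P : (shortCurve a b d).toAffine.Point, ∃ R, P = 2 • R
  · exact ⟨0, fun P => (hall P).imp fun R h => Or.inl h⟩
  push Not at hall
  obtain ⟨_ | ⟨X₁, W₁, h₁⟩, hB⟩ := hall
  · exact absurd (nsmul_zero 2).symm (hB 0)
  refine ⟨Affine.Point.some X₁ W₁ h₁, ?_⟩
  rintro (_ | ⟨X, W, hP⟩)
  · exact ⟨0, Or.inl (nsmul_zero 2).symm⟩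
  obtain ⟨s, hs | hs⟩ := hclass X W (shortCurve_equation hP)
  · obtain ⟨R, hR⟩ := exists_half hθ hind hspan (hP := hP) hs
    exact ⟨R, Or.inl hR.symm⟩
  obtain ⟨s₁, hs₁ | hs₁⟩ := hclass X₁ W₁ (shortCurve_equation h₁)
  · obtain ⟨R, hR⟩ := exists_half hθ hind hspan (hP := h₁) hs₁
    exact absurd hR.symm (hB R)
  by_cases hX : X = X₁
  · subst hX
    rcases sq_eq_sq_iff_eq_or_eq_neg.mp
      (show W ^ 2 = W₁ ^ 2 by rw [shortCurve_equation hP, shortCurve_equation h₁]) with rfl | rfl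
    · exact ⟨0, Or.inr (by rw [nsmul_zero, add_zero])⟩
    · refine ⟨-Affine.Point.some X W₁ h₁, Or.inr ?_⟩
      rw [two_nsmul, add_neg_cancel_left, Affine.Point.neg_some, Affine.Point.some.injEq]
      exact ⟨rfl, by rw [shortCurve_negY]⟩
  set l := (W - W₁) / (X - X₁) with hl
  set v := W - l * X with hv
  have hv₁ : W₁ = l * X₁ + v := by
    have := div_mul_cancel₀ (W - W₁) (sub_ne_zero.mpr hX)
    rw [← hl] at this
    linear_combination this - hv
  obtain ⟨X₃, W₃, h₃, hadd, hX₃⟩ : ∃ X₃ W₃ h₃,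
      Affine.Point.some X W hP + Affine.Point.some X₁ W₁ h₁ = Affine.Point.some X₃ W₃ h₃ ∧
        X₃ = l ^ 2 - a - X - X₁ := by
    refine ⟨_, _, _, Affine.Point.add_of_X_ne hX, ?_⟩
    simp [Affine.addX, Affine.slope_of_X_ne hX, shortCurve, hl]
  have hE := shortCurve_equation hP
  have hE₁ := shortCurve_equation h₁
  rw [hv₁] at hE₁
  rw [show W = l * X + v by rw [hv]; ring] at hE
  clear_value l v
  have hp : b - 2 * l * v = X * X₁ + (X + X₁) * X₃ := by
    refine mul_left_cancel₀ (sub_ne_zero.mpr hX) ?_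
    linear_combination hE₁ - hE - (X - X₁) * (X + X₁) * hX₃
  have hq : v ^ 2 - d = X * X₁ * X₃ := by
    linear_combination hE + X * hp + X ^ 2 * hX₃
  have hid : ((X : K) - θ) * ((X₁ : K) - θ) * ((X₃ : K) - θ) = ((l : K) * θ + v) ^ 2 := by
    have e1 : (b : K) - 2 * l * v = (X : K) * X₁ + ((X : K) + X₁) * X₃ := by exact_mod_cast hp
    have e2 : (v : K) ^ 2 - d = (X : K) * X₁ * X₃ := by exact_mod_cast hq
    have e3 : (X₃ : K) = (l : K) ^ 2 - a - X - X₁ := by exact_mod_cast hX₃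
    linear_combination θ ^ 2 * e3 + θ * e1 - e2 - hθ
  have hne : ∀ T : ℚ, (T : K) - θ ≠ 0 := fun T e =>
    neg_ne_zero.mpr one_ne_zero (hind 0 (-1) T (by push_cast; linear_combination e)).2.1
  have hne' : c * (s * s₁) ≠ 0 := fun e => mul_ne_zero (hne X) (hne X₁) (by
    rw [hs, hs₁]; linear_combination (c * (s * s₁)) * e)
  obtain ⟨R, hR⟩ := exists_half hθ hind hspan (hP := h₃)
    (s := ((l : K) * θ + v) / (c * (s * s₁))) (by
      rw [div_pow, eq_div_iff (pow_ne_zero 2 hne'), ← hid, hs, hs₁]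
      ring)
  refine ⟨R - Affine.Point.some X₁ W₁ h₁, Or.inr ?_⟩
  rw [nsmul_sub, hR, ← hadd, two_nsmul]
  abel

end FA.TwoDescent

end
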