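import Fermat.Agent.SetzerNeumann.TwoIsogeny
import Fermat.Agent.SetzerNeumann.RankZero

/-!
# The class map of the two-isogeny descent

On `y² = x³ + a x² + b x` the class of the abscissa, read as sign and parities of exponents at a
finite set of primes, is additive. If all other exponents are even its kernel on the isogenous
curve consists of images.
-/

set_option autoImplicit false
set_option linter.style.haveILetI false

noncomputable section

open WeierstrassCurve
open FA.CM.Seven (twoCurve twoCurve_equation twoCurve_negY isogHom isogHom_apply isogFun_some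
  isogFun_some_zero exists_line)
open FA.SetzerNeumann (zeroPoint exists_preimage b_ne_zero)

namespace FA.TwoDescent

/-- Signs and parities at the primes of `S`. -/
abbrev Classes (S : Finset ℕ) : Type := Option S → ZMod 2

/-- The class of a rational number. -/
def classOf (S : Finset ℕ) (x : ℚ) : Classes S
  | none => if x < 0 then 1 else 0
  | some q => (padicValRat q.1 x : ZMod 2)

/-- Twice a class is zero. -/
theorem class_add_self {S : Finset ℕ} (u : Classes S) : u + u = 0 :=
  funext fun i => CharTwo.add_self_eq_zero (u i)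

theorem classOf_mul {S : Finset ℕ} (hS : ∀ q ∈ S, q.Prime) {x y : ℚ} (hx : x ≠ 0) (hy : y ≠ 0) :
    classOf S (x * y) = classOf S x + classOf S y := by
  funext i
  rcases i with _ | ⟨q, hq⟩
  · simp only [classOf, Pi.add_apply]
    rcases hx.lt_or_gt with h | h <;> rcases hy.lt_or_gt with h' | h'
    · rw [if_neg (mul_pos_of_neg_of_neg h h').not_gt, if_pos h, if_pos h']
      rfl
    · rw [if_pos (mul_neg_of_neg_of_pos h h'), if_pos h, if_neg h'.not_gt, add_zero]
    · rw [if_pos (mul_neg_of_pos_of_neg h h'), if_neg h.not_gt, if_pos h', zero_add]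
    · rw [if_neg (mul_pos h h').not_gt, if_neg h.not_gt, if_neg h'.not_gt, add_zero]
  · have := Fact.mk (hS q hq)
    simp only [classOf, Pi.add_apply]
    rw [padicValRat.mul hx hy, Int.cast_add]

theorem classOf_sq {S : Finset ℕ} (hS : ∀ q ∈ S, q.Prime) {x : ℚ} (hx : x ≠ 0) :
    classOf S (x ^ 2) = 0 := by
  rw [sq, classOf_mul hS hx hx, class_add_self]

/-- All exponents outside `S` are even. -/
def Supported (S : Finset ℕ) (x : ℚ) : Prop :=
  ∀ q : ℕ, q.Prime → q ∉ S → Even (padicValRat q x)

/-- A natural number with even exponents is a square. -/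
theorem isSquare_of_even_exponents {n : ℕ} (hn : n ≠ 0)
    (h : ∀ p : ℕ, p.Prime → p ∣ n → Even (padicValNat p n)) : IsSquare n := by
  obtain ⟨a, b, hab, ha⟩ := Nat.sq_mul_squarefree n
  suffices h1 : a = 1 by exact ⟨b, by rw [← hab, h1]; ring⟩
  by_contra hne
  obtain ⟨p, hp, hpa⟩ := Nat.exists_prime_and_dvd hne
  haveI := Fact.mk hp
  have hb0 : b ≠ 0 := fun e => hn (by rw [← hab, e]; simp)
  have h1 : padicValNat p a = 1 := by
    refine le_antisymm ?_ (one_le_padicValNat_of_dvd ha.ne_zero hpa)
    rw [← Nat.factorization_def _ hp]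
    exact (Nat.squarefree_iff_factorization_le_one ha.ne_zero).mp ha p
  have h2 := h p hp (hab ▸ Dvd.dvd.mul_left hpa _)
  rw [← hab, padicValNat.mul (pow_ne_zero 2 hb0) ha.ne_zero, padicValNat.pow _ _, h1,
    Nat.even_iff] at h2
  omega

/-- A supported rational of trivial class is a square. -/
theorem isSquare_of_classOf {S : Finset ℕ} {x : ℚ} (hx : x ≠ 0) (hsupp : Supported S x)
    (h0 : classOf S x = 0) : IsSquare x := by
  have hpos : 0 < x := by
    rcases hx.lt_or_gt with h | h
    · exact absurd (congrFun h0 none) (by simp [classOf, h])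
    · exact h
  have heven : ∀ q : ℕ, q.Prime → Even (padicValRat q x) := fun q hq => by
    by_cases hm : q ∈ S
    · have := congrFun h0 (some ⟨q, hm⟩)
      simp only [classOf, Pi.zero_apply] at this
      rw [ZMod.intCast_zmod_eq_zero_iff_dvd] at this
      exact even_iff_two_dvd.2 this
    · exact hsupp q hq hm
  have hnum : (x.num.natAbs : ℤ) = x.num := Int.natAbs_of_nonneg (Rat.num_pos.2 hpos).le
  have hv : ∀ q : ℕ, q.Prime → (q ∣ x.num.natAbs → Even (padicValNat q x.num.natAbs)) ∧
      (q ∣ x.den → Even (padicValNat q x.den)) := fun q hq => by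
    have he := heven q hq
    have hco : x.num.natAbs.Coprime x.den := x.reduced
    rw [padicValRat_def, padicValInt] at he
    refine ⟨fun hd => ?_, fun hd => ?_⟩
    · have : padicValNat q x.den = 0 := padicValNat.eq_zero_of_not_dvd fun hd' =>
        hq.one_lt.ne' (Nat.eq_one_of_dvd_coprimes hco hd hd')
      rw [this, Nat.cast_zero, sub_zero, Int.even_coe_nat] at he
      exact he
    · have : padicValNat q x.num.natAbs = 0 := padicValNat.eq_zero_of_not_dvd fun hd' =>
        hq.one_lt.ne' (Nat.eq_one_of_dvd_coprimes hco hd' hd)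
      rw [this, Nat.cast_zero, zero_sub, even_neg, Int.even_coe_nat] at he
      exact he
  rw [Rat.isSquare_iff, ← hnum, Int.isSquare_natCast_iff]
  exact ⟨isSquare_of_even_exponents (Int.natAbs_ne_zero.2 (Rat.num_ne_zero.2 hx))
      fun q hq => (hv q hq).1,
    isSquare_of_even_exponents x.den_nz fun q hq => (hv q hq).2⟩

variable {a b : ℚ}

/-- The class of a point, `(0, 0)` having that of `b`. -/
def classFun (S : Finset ℕ) (a b : ℚ) : (twoCurve a b).toAffine.Point → Classes S
  | .zero => 0
  | .some x _ _ => if x = 0 then classOf S b else classOf S x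

theorem classFun_some_of_ne {S : Finset ℕ} {x y : ℚ}
    {h : (twoCurve a b).toAffine.Nonsingular x y} (hx : x ≠ 0) :
    classFun S a b (.some x y h) = classOf S x := if_neg hx

theorem classFun_some_zero {S : Finset ℕ} {y : ℚ}
    {h : (twoCurve a b).toAffine.Nonsingular 0 y} :
    classFun S a b (.some 0 y h) = classOf S b := by simp [classFun]

theorem classFun_neg {S : Finset ℕ} (P : (twoCurve a b).toAffine.Point) :
    classFun S a b (-P) = classFun S a b P := by
  rcases P with _ | ⟨x, y, h⟩
  · rfl
  · rw [Affine.Point.neg_some]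
    rfl

variable [(twoCurve a b).IsElliptic]

/-- **The class map is additive.** -/
theorem classFun_add {S : Finset ℕ} (hS : ∀ q ∈ S, q.Prime)
    (P Q : (twoCurve a b).toAffine.Point) :
    classFun S a b (P + Q) = classFun S a b P + classFun S a b Q := by
  have hb := b_ne_zero (a := a) (b := b)
  rcases P with _ | ⟨x₁, y₁, h₁⟩
  · rw [← Affine.Point.zero_def, zero_add]
    exact (zero_add _).symm
  rcases Q with _ | ⟨x₂, y₂, h₂⟩
  · rw [← Affine.Point.zero_def, add_zero]
    exact (add_zero _).symm
  by_cases hxy : x₁ = x₂ ∧ y₁ = (twoCurve a b).toAffine.negY x₂ y₂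
  · rw [Affine.Point.add_of_Y_eq hxy.1 hxy.2]
    obtain ⟨rfl, -⟩ := hxy
    exact (class_add_self _).symm
  obtain ⟨M, C, x₃, h₃, -, -, -, e₂, e₃, hsum⟩ := exists_line h₁ h₂ hxy
  rw [hsum, classFun_neg]
  -- two abscissae have product `b` when the third vanishes
  have key : ∀ {u v : ℚ}, u * v = b → classOf S u + classOf S v = classOf S b := fun {u v} e => by
    rw [← e, classOf_mul hS (fun h => hb (by rw [← e, h, zero_mul]))
      (fun h => hb (by rw [← e, h, mul_zero]))]
  have hne : ∀ {u v : ℚ}, u * v = b → u ≠ 0 ∧ v ≠ 0 := fun e =>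
    ⟨fun h => hb (by rw [← e, h, zero_mul]), fun h => hb (by rw [← e, h, mul_zero])⟩
  have hC : ∀ {u v w : ℚ}, u * v * w = C ^ 2 → w = 0 → C = 0 := fun e hw =>
    pow_eq_zero_iff two_ne_zero |>.1 (by rw [← e, hw, mul_zero])
  by_cases z₁ : x₁ = 0
  · subst z₁
    have hC0 : C = 0 := hC (u := x₂) (v := x₃) (w := 0) (by linear_combination e₃) rfl
    have e : x₂ * x₃ = b := by rw [hC0] at e₂; linear_combination e₂
    rw [classFun_some_zero, classFun_some_of_ne (hne e).1, classFun_some_of_ne (hne e).2,
      ← key e, add_comm (classOf S x₂) (classOf S x₃), add_assoc, class_add_self, add_zero]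
  by_cases z₂ : x₂ = 0
  · subst z₂
    have hC0 : C = 0 := hC (u := x₁) (v := x₃) (w := 0) (by linear_combination e₃) rfl
    have e : x₁ * x₃ = b := by rw [hC0] at e₂; linear_combination e₂
    rw [classFun_some_zero, classFun_some_of_ne (hne e).1, classFun_some_of_ne (hne e).2,
      ← key e, ← add_assoc, class_add_self, zero_add]
  by_cases z₃ : x₃ = 0
  · subst z₃
    have hC0 : C = 0 := hC e₃ rfl
    have e : x₁ * x₂ = b := by rw [hC0] at e₂; linear_combination e₂
    rw [classFun_some_zero, classFun_some_of_ne z₁, classFun_some_of_ne z₂, key e]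
  rw [classFun_some_of_ne z₁, classFun_some_of_ne z₂, classFun_some_of_ne z₃]
  have hC0 : C ≠ 0 := fun h => mul_ne_zero (mul_ne_zero z₁ z₂) z₃ (by rw [e₃, h]; ring)
  have h0 : classOf S (x₁ * x₂ * x₃) = 0 := by rw [e₃, classOf_sq hS hC0]
  rw [classOf_mul hS (mul_ne_zero z₁ z₂) z₃, classOf_mul hS z₁ z₂] at h0
  rw [← sub_eq_zero, ← h0, sub_eq_add_neg, add_comm _ (classOf S x₃)]
  exact congrArg (classOf S x₃ + ·) (neg_eq_of_add_eq_zero_left (class_add_self _))

/-- The class map. -/
def classHom {S : Finset ℕ} (hS : ∀ q ∈ S, q.Prime) :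
    (twoCurve a b).toAffine.Point →+ Classes S :=
  AddMonoidHom.mk' (classFun S a b) (classFun_add hS)

variable [(twoCurve (-2 * a) (a ^ 2 - 4 * b)).IsElliptic]

/-- **The kernel consists of images.** -/
theorem exists_preimage_of_classHom {S : Finset ℕ} (hS : ∀ q ∈ S, q.Prime)
    (hb : Supported S (a ^ 2 - 4 * b))
    (hx : ∀ x y : ℚ, x ≠ 0 → y ^ 2 = x ^ 3 + (-2 * a) * x ^ 2 + (a ^ 2 - 4 * b) * x →
      Supported S x)
    {P : (twoCurve (-2 * a) (a ^ 2 - 4 * b)).toAffine.Point} (hP : classHom hS P = 0) :
    ∃ Q, isogHom (a := a) (b := b) Q = P := by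
  rcases P with _ | ⟨x, y, h⟩
  · exact ⟨0, map_zero _⟩
  change classFun S _ _ (.some x y h) = 0 at hP
  have hb' := b_ne_zero (a := -2 * a) (b := a ^ 2 - 4 * b)
  by_cases z : x = 0
  · subst z
    obtain rfl : y = 0 := by simpa using twoCurve_equation.mp h.1
    rw [classFun_some_zero] at hP
    obtain ⟨k, hk⟩ := isSquare_of_classOf hb' hb hP
    set u := (-a + k) / 2 with hu
    have hu2 : u ^ 2 + a * u + b = 0 := by rw [hu]; linear_combination -hk / 4
    have hu0 : u ≠ 0 := fun e => b_ne_zero (a := a) (b := b) (by rw [e] at hu2; linarith)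
    refine ⟨.some u 0 (Affine.equation_iff_nonsingular.mp
      (twoCurve_equation.mpr (by linear_combination -u * hu2))), ?_⟩
    rw [isogHom_apply, isogFun_some hu0, Affine.Point.some.injEq]
    simp
  · rw [classFun_some_of_ne z] at hP
    obtain ⟨s, hs⟩ := isSquare_of_classOf z (hx x y z (twoCurve_equation.mp h.1)) hP
    obtain rfl : x = s ^ 2 := by rw [hs, sq]
    exact exists_preimage h fun e => z (by rw [e]; ring)

end FA.TwoDescent

end
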